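/-
M59 (helper20, generator): EVEN-LEVEL twin of TW/Easy/ToricW/MainJ.lean (helper16): (Z8)-J for `2 ∣ M`, exponent
`m` prime to `2 q` (in use `m = 3 ^ n`): `m59tj_toricW : twf_ToricW_stmt A M hqM m (-1)`.  Prefix `m59tj_`.
-/
import Mathlib
import Fermat.Agent.TW.Easy.Toric.NormalForm
import Fermat.Agent.TW.Easy.Toric.ClassOfFFW
import Fermat.Agent.TW.Easy.ToricW.LegWToric
import Fermat.Agent.TW.Easy.Asm.ToricWAdapter
import Fermat.Agent.TW.Easy.ToricW.MainJ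
import Fermat.Agent.M59.DTwin.Asm.ToricWAdapter
import Fermat.Agent.M59.DTwin.Toric.NormalForm

set_option autoImplicit false
set_option linter.unusedSectionVars false
set_option linter.unusedVariables false
set_option linter.style.haveILetI false
set_option synthInstance.maxHeartbeats 400000
set_option maxHeartbeats 1000000

noncomputable section

namespace Fermat.Agent.M59

open Fermat.Agent.TW

open ModularCurve AlgebraicCurve IntermediateField IsLocalRing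
open Fermat.Agent.JT3 Fermat.Agent.SS Fermat.Agent.S35 Fermat.Agent.S24 Fermat.Agent.S44
  Fermat.Agent.SS2 Fermat.Agent.S43

local notation "Qb" => AlgebraicClosure ℚ
local notation "GQ" => (AlgebraicClosure ℚ ≃ₐ[ℚ] AlgebraicClosure ℚ)

section Glue

variable (A : ValuationSubring Qb) {q : ℕ} [hq : Fact q.Prime] (hA : A.LiesOverPrime q)
  (M : ℕ) [NeZero M] [NeZero q] [NeZero (M * q)] (hqM : ¬ q ∣ M) (hq2 : ¬ 2 ∣ q)

include hA hq2 in
/-- **(Z8)-J at `(A, φ)`**: on `I_A`-fixed `z ∈ J₀(M q)[m]` with `ν = 0 = δ` at `z` and at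
`W_q z`, `W_q (φ z) + q z = 0`. -/
theorem m59tj_toricW_at (φ : GQ) (hφ : A.IsFrobeniusAt φ q) {m : ℕ} (hm0 : m ≠ 0)
    (hM2 : 2 ∣ M) (hm2 : Nat.Coprime m 2) (hqm : ¬ q ∣ m)
    (z : JZero (M * q)) (hz : m • z = 0) (hfix : ∀ s ∈ A.inertiaSubgroupIn ℚ, s • z = z)
    (hν : twfr_nu A M q hq.out hqM m z = 0)
    (hνW : twfr_nu A M q hq.out hqM m (s44w_WJ M q hq.out hqM z) = 0)
    (hδ : twfr_delta A M q m z = 0)
    (hδW : twfr_delta A M q m (s44w_WJ M q hq.out hqM z) = 0) :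
    s44w_WJ M q hq.out hqM (φ • z) + q • z = 0 := by
  have hqq : q.Prime := hq.out
  obtain ⟨f, hrep, L1, hlev, -, ⟨ζ, hζ⟩, g1, c₀, r₀, hg1, hc₀, hr₀, hfeq, hordg1, hnf⟩ :=
    m59to_normal_form A hA M hqM hq2 hm0 hM2 hm2 hqm ∅ (by simp) hz hfix hν hνW hδ hδW
  haveI : NumberField ↥L1 := { to_charZero := inferInstance, to_finiteDimensional := hlev.fd }
  haveI hdvr : IsDiscreteValuationRing ↥(A.comap (algebraMap ↥L1 Qb)) := hlev.dvr
  have hmem := lg_natCast_mem_maximalIdeal A hA ↥L1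
  haveI : CharP (ResidueField ↥(A.comap (algebraMap ↥L1 Qb))) q := ss_nfl_charP_residue hmem
  obtain ⟨k, R, g', hk, hR, hg', hι, hordg', hcr⟩ := hnf hlev.irr
  -- the restriction of `φ`
  set σ1 : ↥L1 ≃ₐ[ℚ] ↥L1 := hlev.res φ hφ.mem_decompositionSubgroup with hσ1
  have hσ1c : ∀ x : ↥L1, algebraMap ↥L1 Qb (σ1 x) = φ (algebraMap ↥L1 Qb x) := fun x =>
    hlev.res_coe φ hφ.mem_decompositionSubgroup x
  have hmu : IsUnit ((m : ℕ) : ↥(A.comap (algebraMap ↥L1 Qb))) :=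
    lg_isUnit_natCast hmem ((Nat.Prime.coprime_iff_not_dvd hqq).2 hqm).symm
  have hF := s35ti_frobAt_of_frobenius A φ hφ L1 σ1.toRingEquiv (fun x => hσ1c x)
  -- the SWAP toric identity over `(L1, φ|L1)`
  have hTor : twfw_ff_ToricWAt (A.comap (algebraMap ↥L1 Qb)) hlev.irr M q hq2 hqM
      σ1.toRingEquiv m :=
    twfw_ff_leg_toricWAt ↥L1 (A.comap (algebraMap ↥L1 Qb)) M q hq2 hqM hlev.irr ζ hζ
      σ1.toRingEquiv hF m hmu
  obtain ⟨c, r, hr, hid⟩ := hTor g' hg' hordg' hcr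
  exact twfc_class_of_ff_W ↥L1 M q hq2 hqM φ σ1 hσ1c hm0 q hrep g1 hg1 hordg1 hc₀ hr₀ hfeq hι hid

include hA in
/-- **(Z8)-J**: GeoSeam's `twf_ToricW_stmt A M hqM m (-1)`. -/
theorem m59tj_toricW (hq2' : q ≠ 2) {m : ℕ} (hm0 : m ≠ 0) (hM2 : 2 ∣ M) (hm2 : Nat.Coprime m 2)
    (hqm : ¬ q ∣ m) : twf_ToricW_stmt A M hqM m (-1) :=
  m59ad_toricW_of_sep_comm A hA M hqM hq2' hm0 hM2 hm2 (fun φ hφ z hz hfix h1 h2 h3 h4 =>
    m59tj_toricW_at A hA M hqM
      (fun h => hq2' ((Nat.prime_dvd_prime_iff_eq Nat.prime_two hq.out).1 h).symm)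
      φ hφ hm0 hM2 hm2 hqm z hz hfix h1 h2 h3 h4)

end Glue

end Fermat.Agent.M59
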